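import Fermat.Agent.EisIndex.Theta.Series

/-!
The theta series of the lattice is a weight two form on `Γ₀(p)`, with constant term one and even
higher coefficients.
-/

set_option autoImplicit false

noncomputable section

namespace FLTAgent.EisIndex.Theta

open Complex Function ModularGroup ModularForm Matrix.SpecialLinearGroup CongruenceSubgroup
open UpperHalfPlane hiding I
open scoped Real Manifold MatrixGroups ModularForm

variable {p : ℕ} [Fact p.Prime]

namespace LatticeDatum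

variable (d : LatticeDatum p)

/-! ### The Gauss sum -/

/-- The binary norm. -/
def nm (A : ZMod p × ZMod p) : ZMod p := d.qq * A.1 ^ 2 + A.2 ^ 2

theorem nm_eq_zero {A : ZMod p × ZMod p} (h : d.nm A = 0) : A = 0 := by
  have h1 : A.1 = 0 := by
    by_contra h1
    refine d.nonsq ⟨A.2 / A.1, ?_⟩
    show -d.qq = _
    simp only [nm] at h
    field_simp
    linear_combination -h
  have h2 : A.2 = 0 := by simpa [nm, h1] using h
  exact Prod.ext h1 h2

theorem exists_nm (hp2 : p ≠ 2) (y : ZMod p) : ∃ A, d.nm A = y := by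
  open Polynomial in
  obtain ⟨a, b, hab⟩ := FiniteField.exists_root_sum_quadratic (R := ZMod p)
    (f := C d.qq * X ^ 2) (g := X ^ 2 - C y) (degree_C_mul_X_pow 2 d.qq_ne_zero)
    (degree_X_pow_sub_C (by decide) _)
    (by rw [ZMod.card]; exact (Fact.out : p.Prime).eq_two_or_odd.resolve_left hp2)
  exact ⟨(a, b), sub_eq_zero.1 (by simpa [nm, ← add_sub_assoc] using hab)⟩

/-- The sum over the discriminant group of the character composed with the norm. -/
def gsum (y : ZMod p) : ℂ := ∑ A : ZMod p × ZMod p, ZMod.stdAddChar (y * d.nm A)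

theorem gsum_eq_one (hp2 : p ≠ 2) {y : ZMod p} (hy : y ≠ 0) : d.gsum y = d.gsum 1 := by
  obtain ⟨C, hC⟩ := d.exists_nm hp2 y
  let M : ZMod p × ZMod p → ZMod p × ZMod p := fun A ↦
    (C.1 * A.2 + C.2 * A.1, C.2 * A.2 - d.qq * C.1 * A.1)
  have hM : ∀ A, d.nm (M A) = y * d.nm A := fun A ↦ by
    rw [← hC]
    simp only [nm, M]
    ring
  have hinj : Injective M := fun A B h ↦ by
    refine sub_eq_zero.1 (d.nm_eq_zero ((mul_eq_zero.1 ?_).resolve_left hy))
    rw [← hM]
    have e : M (A - B) = M A - M B := by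
      ext <;> simp [M] <;> ring
    rw [e, h, sub_self]
    simp [nm]
  rw [gsum, gsum]
  refine Fintype.sum_bijective M (Finite.injective_iff_bijective.1 hinj) _ _ fun A ↦ ?_
  rw [hM, one_mul]

theorem gsum_eq (hp2 : p ≠ 2) {y : ZMod p} (hy : y ≠ 0) : d.gsum y = -(p : ℂ) := by
  rw [d.gsum_eq_one hp2 hy]
  have hp : p.Prime := Fact.out
  have h0 : d.gsum 0 = (p : ℂ) * p := by simp [gsum]
  have hs : ∑ x, d.gsum x = (p : ℂ) := by
    simp only [gsum]
    rw [Finset.sum_comm, Finset.sum_eq_single 0]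
    · simp [nm]
    · intro A _ hA
      rw [AddChar.sum_mulShift _ (ZMod.isPrimitive_stdAddChar p),
        if_neg fun h ↦ hA (d.nm_eq_zero h), Nat.cast_zero]
    · simp
  rw [← Finset.add_sum_erase _ _ (Finset.mem_univ (0 : ZMod p)), h0,
    Finset.sum_congr rfl fun x hx ↦ d.gsum_eq_one hp2 (Finset.ne_of_mem_erase hx),
    Finset.sum_const, Finset.card_erase_of_mem (Finset.mem_univ _), Finset.card_univ, ZMod.card,
    nsmul_eq_mul, Nat.cast_sub hp.one_le] at hs
  have h1 : ((p : ℂ) - 1) ≠ 0 := sub_ne_zero.2 (by exact_mod_cast hp.ne_one)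
  refine mul_left_cancel₀ h1 ?_
  push_cast at hs ⊢
  linear_combination hs

/-! ### The family indexed by the cosets -/

/-- The functions on the discriminant group attached to the cosets of `Γ₀(p)`. -/
def chi : Option (ZMod p) → ZMod p × ZMod p → ℂ
  | none => delta 0
  | some x => fun A ↦ -(p : ℂ)⁻¹ * ZMod.stdAddChar (x * d.qb A)

theorem chi_T (o : Option (ZMod p)) :
    (fun A ↦ d.chi o A * ZMod.stdAddChar (d.qb A)) = d.chi (o.map (· + 1)) := by
  funext A
  cases o with
  | none =>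
    rcases eq_or_ne A 0 with rfl | hA
    · simp [chi, delta, qb]
    · simp [chi, delta, hA]
  | some x =>
    simp only [chi, Option.map_some]
    rw [mul_assoc, ← AddChar.map_add_eq_mul, add_mul, one_mul]

theorem ft_chi_none : d.ft (d.chi none) = d.chi (some 0) := by
  funext A
  simp [ft, chi, delta, qbil]

theorem ft_chi_some (hp2 : p ≠ 2) {x : ZMod p} (hx : x ≠ 0) :
    d.ft (d.chi (some x)) = d.chi (some (-x⁻¹)) := by
  funext A
  have hq : (4 * d.qq)⁻¹ ≠ 0 := inv_ne_zero (d.four_qq_ne_zero hp2)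
  have e : ∀ B : ZMod p × ZMod p, ZMod.stdAddChar (x * d.qb B) * ZMod.stdAddChar (-d.qbil A B) =
      ZMod.stdAddChar (-x⁻¹ * d.qb A) *
        ZMod.stdAddChar (x * (4 * d.qq)⁻¹ * d.nm (B - (x⁻¹ * A.1, x⁻¹ * A.2))) := by
    intro B
    rw [← AddChar.map_add_eq_mul, ← AddChar.map_add_eq_mul]
    congr 1
    simp only [qb, qbil, nm, Prod.fst_sub, Prod.snd_sub]
    field_simp
    ring
  have hG : ∑ B, ZMod.stdAddChar (x * (4 * d.qq)⁻¹ * d.nm (B - (x⁻¹ * A.1, x⁻¹ * A.2))) =
      -(p : ℂ) := by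
    rw [← d.gsum_eq hp2 (mul_ne_zero hx hq)]
    exact Equiv.sum_comp (Equiv.subRight (x⁻¹ * A.1, x⁻¹ * A.2))
      (fun B ↦ (ZMod.stdAddChar (x * (4 * d.qq)⁻¹ * d.nm B) : ℂ))
  have hp : (p : ℂ) ≠ 0 := Nat.cast_ne_zero.2 (Fact.out : p.Prime).ne_zero
  simp only [ft, chi, mul_assoc, e]
  rw [← Finset.mul_sum, ← Finset.mul_sum]
  simp only [← mul_assoc] at hG ⊢
  rw [hG]
  field_simp

theorem theta_chi_T (hp2 : p ≠ 2) (o : Option (ZMod p)) :
    d.theta (d.chi o) ∣[(2 : ℤ)] T = d.theta (d.chi (o.map (· + 1))) := by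
  rw [d.theta_slash_T hp2, chi_T]

theorem slash_S_slash_S (f : ℍ → ℂ) : (f ∣[(2 : ℤ)] S) ∣[(2 : ℤ)] S = f := by
  funext τ
  have hτ : (τ : ℂ) ≠ 0 := UpperHalfPlane.ne_zero τ
  have e : S • S • τ = τ := by
    ext
    rw [coe_S_smul, coe_S_smul]
    field_simp
  rw [slash_S_two_apply, slash_S_two_apply, e, coe_S_smul]
  field_simp

/-- The action of `S` on the indices. -/
def invIdx : Option (ZMod p) → Option (ZMod p)
  | none => some 0
  | some x => if x = 0 then none else some (-x⁻¹)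

theorem theta_chi_S (hp2 : p ≠ 2) (o : Option (ZMod p)) :
    d.theta (d.chi o) ∣[(2 : ℤ)] S = d.theta (d.chi (invIdx o)) := by
  cases o with
  | none => rw [d.theta_slash_S hp2, ft_chi_none]; rfl
  | some x =>
    rcases eq_or_ne x 0 with rfl | hx
    · have e : d.theta (d.chi (some 0)) = d.theta (d.chi none) ∣[(2 : ℤ)] S := by
        rw [d.theta_slash_S hp2, ft_chi_none]
      rw [e, slash_S_slash_S, invIdx, if_pos rfl]
    · rw [d.theta_slash_S hp2, d.ft_chi_some hp2 hx, invIdx, if_neg hx]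

/-- The index as a coset. -/
def idxCoset : Option (ZMod p) → Dim.Cosets0 p
  | none => (cosetRep p none : Dim.Cosets0 p)
  | some x => (cosetRep p (some ⟨x.val, x.val_lt⟩) : Dim.Cosets0 p)

omit d in
theorem idxCoset_surjective : Surjective (idxCoset (p := p)) := by
  intro q
  obtain ⟨o, rfl⟩ := (cosetEquiv p).surjective q
  cases o with
  | none => exact ⟨none, rfl⟩
  | some j =>
    refine ⟨some ((j : ℕ) : ZMod p), ?_⟩
    simp [idxCoset, ZMod.val_natCast, Nat.mod_eq_of_lt j.2]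

omit d in
theorem idxCoset_T (o : Option (ZMod p)) :
    T⁻¹ • idxCoset o = idxCoset (o.map (· + 1)) := by
  cases o with
  | none =>
    rw [Option.map_none, idxCoset, MulAction.Quotient.smul_coe, Dim.mk_eq_mk_iff]
    simp [cosetRep]
  | some x =>
    rw [Option.map_some, idxCoset, idxCoset, MulAction.Quotient.smul_coe, Dim.mk_eq_mk_iff]
    simp only [smul_eq_mul, Matrix.SpecialLinearGroup.coe_mul, Matrix.mul_apply, Fin.sum_univ_two, (cosetRep_col _).1,
      (cosetRep_col _).2, coe_T_inv]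
    simp

omit d in
theorem idxCoset_S (o : Option (ZMod p)) :
    S⁻¹ • idxCoset o = idxCoset (invIdx o) := by
  cases o with
  | none =>
    rw [invIdx, idxCoset, idxCoset, MulAction.Quotient.smul_coe, Dim.mk_eq_mk_iff]
    simp only [smul_eq_mul, Matrix.SpecialLinearGroup.coe_mul, Matrix.mul_apply, Fin.sum_univ_two, (cosetRep_col _).1,
      (cosetRep_col _).2, coe_inv, coe_S, Matrix.adjugate_fin_two]
    simp [cosetRep]
  | some x =>
    rcases eq_or_ne x 0 with rfl | hx
    · rw [invIdx, if_pos rfl, idxCoset, idxCoset, MulAction.Quotient.smul_coe, Dim.mk_eq_mk_iff]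
      simp only [smul_eq_mul, Matrix.SpecialLinearGroup.coe_mul, Matrix.mul_apply, Fin.sum_univ_two, (cosetRep_col _).1,
        (cosetRep_col _).2, coe_inv, coe_S, Matrix.adjugate_fin_two]
      simp [cosetRep]
    · rw [invIdx, if_neg hx, idxCoset, idxCoset, MulAction.Quotient.smul_coe, Dim.mk_eq_mk_iff]
      simp only [smul_eq_mul, Matrix.SpecialLinearGroup.coe_mul, Matrix.mul_apply, Fin.sum_univ_two, (cosetRep_col _).1,
        (cosetRep_col _).2, coe_inv, coe_S, Matrix.adjugate_fin_two]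
      simp [hx]

/-- The translates of the lattice theta series under the modular group. -/
theorem theta_chi_slash (hp2 : p ≠ 2) (g : SL(2, ℤ)) :
    ∀ o : Option (ZMod p), ∃ o', idxCoset o' = g⁻¹ • idxCoset o ∧
      d.theta (d.chi o) ∣[(2 : ℤ)] g = d.theta (d.chi o') := by
  have hg : g ∈ Subgroup.closure {S, T} := by simp [SpecialLinearGroup.SL2Z_generators]
  induction hg using Subgroup.closure_induction with
  | one => exact fun o ↦ ⟨o, by simp⟩
  | mem g hg =>
    intro o
    rcases hg with rfl | hg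
    · exact ⟨invIdx o, (idxCoset_S o).symm, d.theta_chi_S hp2 o⟩
    · rw [Set.mem_singleton_iff] at hg
      subst hg
      exact ⟨o.map (· + 1), (idxCoset_T o).symm, d.theta_chi_T hp2 o⟩
  | mul g h _ _ ihg ihh =>
    intro o
    obtain ⟨o₁, h₁, e₁⟩ := ihg o
    obtain ⟨o₂, h₂, e₂⟩ := ihh o₁
    exact ⟨o₂, by rw [h₂, h₁, smul_smul, mul_inv_rev],
      by rw [SlashAction.slash_mul, e₁, e₂]⟩
  | inv g _ ih =>
    intro o
    obtain ⟨o', ho'⟩ := idxCoset_surjective (g • idxCoset o)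
    refine ⟨o', by rw [inv_inv, ho'], ?_⟩
    obtain ⟨o₁, h₁, e₁⟩ := ih o'
    rw [ho', inv_smul_smul] at h₁
    have : o₁ = o := by
      have hinj : Injective (idxCoset (p := p)) :=
        (Finite.injective_iff_surjective_of_equiv
          ((Equiv.optionCongr (ZMod.finEquiv p).toEquiv.symm).trans (cosetEquiv p))).2
          idxCoset_surjective
      exact hinj h₁
    subst this
    rw [← e₁, ← SlashAction.slash_mul, mul_inv_cancel, SlashAction.slash_one]

/-- The theta series of the lattice. -/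
def form : ℍ → ℂ := d.theta (delta 0)

theorem isMF_form (hp2 : p ≠ 2) : Dim.IsMF (Gamma0 p) 2 d.form := by
  refine ⟨d.mdiff_theta _, fun γ hγ ↦ ?_, fun g ↦ ?_⟩
  · obtain ⟨o, ho, e⟩ := d.theta_chi_slash hp2 γ none
    have h1 : γ⁻¹ • idxCoset (none : Option (ZMod p)) = idxCoset none := by
      rw [idxCoset, MulAction.Quotient.smul_coe, QuotientGroup.eq]
      simpa [cosetRep] using hγ
    rw [h1] at ho
    cases o with
    | none => exact e
    | some x =>
      exfalso
      rw [idxCoset, idxCoset, Dim.mk_eq_mk_iff, (cosetRep_col _).1, (cosetRep_col _).2] at ho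
      simp [cosetRep] at ho
  · obtain ⟨o, -, e⟩ := d.theta_chi_slash hp2 g none
    show IsBoundedAtImInfty (d.theta (d.chi none) ∣[(2 : ℤ)] g)
    rw [e]
    exact d.isBounded_theta _

/-! ### The coefficients -/

theorem qfSub_nonneg (u : Fin 4 → ℤ) : 0 ≤ d.qfSub u := by
  have h := d.qf_nonneg (d.adj u)
  rw [qf_adj] at h
  have hp : (0 : ℤ) < p := by exact_mod_cast (Fact.out : p.Prime).pos
  exact nonneg_of_mul_nonneg_right (by exact_mod_cast h) hp

theorem eq_zero_of_qf {v : Fin 4 → ℤ} (h : d.qf v = 0) : v = 0 := by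
  obtain ⟨ε, hε, hb⟩ := d.poisson.bound
  have h' := hb fun i ↦ (v i : ℝ)
  simp only [← cast_qf, h, Int.cast_zero, mul_zero] at h'
  funext i
  have h0 : ∑ i, (v i : ℝ) ^ 2 = 0 := le_antisymm (nonpos_of_mul_nonpos_right h' hε)
    (Finset.sum_nonneg fun i _ ↦ sq_nonneg _)
  simpa using (Finset.sum_eq_zero_iff_of_nonneg fun i _ ↦ sq_nonneg _).1 h0 i (Finset.mem_univ i)

theorem qfSub_eq_zero {u : Fin 4 → ℤ} (h : d.qfSub u = 0) : u = 0 := by
  apply d.adj_injective
  rw [d.eq_zero_of_qf (v := d.adj u) (by rw [qf_adj, h, mul_zero]),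
    d.eq_zero_of_qf (v := d.adj 0) (by rw [qf_adj]; simp [qfSub])]

theorem ex_adj (τ : ℂ) (u : Fin 4 → ℤ) :
    d.ex τ (d.adj u) = cexp (2 * π * I * τ) ^ (d.qfSub u).toNat := by
  have hp : (p : ℂ) ≠ 0 := Nat.cast_ne_zero.2 (Fact.out : p.Prime).ne_zero
  rw [ex, qf_adj, ← Complex.exp_nat_mul]
  congr 1
  have : ((d.qfSub u).toNat : ℂ) = ((d.qfSub u : ℤ) : ℂ) := by
    exact_mod_cast congrArg (fun x : ℤ ↦ (x : ℂ)) (Int.toNat_of_nonneg (d.qfSub_nonneg u))
  rw [this]
  push_cast
  field_simp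

theorem finite_fiber (n : ℕ) : {u : Fin 4 → ℤ | (d.qfSub u).toNat = n}.Finite := by
  have hτ : 0 < (I : ℂ).im := by simp
  have hs := ((d.summable_norm_ex hτ).comp_injective d.adj_injective).tendsto_cofinite_zero
  have hpos : 0 < ‖cexp (2 * π * I * I) ^ n‖ := norm_pos_iff.2 (pow_ne_zero _ (exp_ne_zero _))
  refine (Filter.eventually_cofinite.1 (hs.eventually_lt_const hpos)).subset fun u hu ↦ ?_
  simp only [Set.mem_ofPred_eq, comp_apply, ex_adj] at hu ⊢
  rw [hu]
  exact lt_irrefl _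

/-- The number of representations. -/
def rep (n : ℕ) : ℕ := (d.finite_fiber n).toFinset.card

theorem hasSum_form (hp2 : p ≠ 2) (τ : ℍ) :
    HasSum (fun n ↦ (d.rep n : ℂ) • Periodic.qParam 1 τ ^ n) (d.form τ) := by
  have hτ : 0 < (τ : ℂ).im := τ.im_pos
  have e : d.form τ = ∑' u, d.ex τ (d.adj u) := by
    have h := d.thetaC_delta hp2 0 τ
    simp only [zero_add] at h
    rw [show d.red 0 = 0 by simp [red]] at h
    exact h
  have hsum : HasSum (fun u ↦ d.ex τ (d.adj u)) (d.form τ) :=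
    e ▸ ((d.summable_norm_ex hτ).of_norm.comp_injective d.adj_injective).hasSum
  refine ((Equiv.sigmaFiberEquiv fun u ↦ (d.qfSub u).toNat).hasSum_iff.2 hsum).sigma fun n ↦ ?_
  have : Fintype {u : Fin 4 → ℤ // (d.qfSub u).toNat = n} := (d.finite_fiber n).fintype
  convert hasSum_fintype _ using 1
  simp only [comp_apply, Equiv.sigmaFiberEquiv_apply, smul_eq_mul]
  rw [Finset.sum_congr rfl fun (u : {u : Fin 4 → ℤ // (d.qfSub u).toNat = n}) _ ↦
    show d.ex τ (d.adj u) = Periodic.qParam 1 τ ^ n by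
      rw [ex_adj, u.2]; simp [Periodic.qParam],
    Finset.sum_const, nsmul_eq_mul, Finset.card_univ, ← Nat.card_eq_fintype_card, rep,
    ← Set.ncard_eq_toFinset_card _ (d.finite_fiber n)]
  rfl

theorem rep_zero : d.rep 0 = 1 := by
  rw [rep, Finset.card_eq_one]
  refine ⟨0, Finset.ext fun u ↦ ?_⟩
  simp only [Set.Finite.mem_toFinset, Set.mem_ofPred_eq, Int.toNat_eq_zero, Finset.mem_singleton]
  refine ⟨fun h ↦ d.qfSub_eq_zero (le_antisymm h (d.qfSub_nonneg u)), ?_⟩
  rintro rfl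
  simp [qfSub]

theorem two_dvd_rep {n : ℕ} (hn : n ≠ 0) : 2 ∣ d.rep n := by
  rw [← ZMod.natCast_eq_zero_iff]
  have : (∑ u ∈ (d.finite_fiber n).toFinset, (1 : ZMod 2)) = 0 := by
    refine Finset.sum_involution (fun u _ ↦ -u) (fun u _ ↦ by decide) (fun u hu _ h ↦ ?_)
      (fun u hu ↦ ?_) (fun u _ ↦ neg_neg u)
    · have h0 : u = 0 := by
        funext i
        have := congrFun h i
        simp only [Pi.neg_apply, Pi.zero_apply] at this ⊢
        omega
      subst h0
      simp [qfSub] at hu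
      exact hn hu.symm
    · simp only [Set.Finite.mem_toFinset, Set.mem_ofPred_eq] at hu ⊢
      rw [← hu]
      congr 1
      simp [qfSub]
  simpa [rep] using this

end LatticeDatum

/-- A weight two form on `Γ₀(p)` with constant term one and even higher coefficients. -/
theorem exists_form (hp2 : p ≠ 2) : ∃ (F : ℍ → ℂ) (r : ℕ → ℕ), Dim.IsMF (Gamma0 p) 2 F ∧
    r 0 = 1 ∧ (∀ n, n ≠ 0 → 2 ∣ r n) ∧
    ∀ n, (qExpansion 1 F).coeff n = (r n : ℂ) := by
  obtain ⟨d⟩ := exists_latticeDatum hp2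
  refine ⟨d.form, d.rep, d.isMF_form hp2, d.rep_zero, fun n hn ↦ d.two_dvd_rep hn, fun n ↦ ?_⟩
  have := qExpansion_coeff_eq (h := 1) (mem_qFnH_one (d.isMF_form hp2)) (c := fun n ↦ (d.rep n : ℂ))
    (by simpa using d.hasSum_form hp2) n
  simpa using this

end FLTAgent.EisIndex.Theta
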