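import Fermat.Agent.EisIndex.Theta.Poisson
import Mathlib.NumberTheory.LegendreSymbol.QuadraticReciprocity
import Mathlib.NumberTheory.LSeries.PrimesInAP
import Mathlib.NumberTheory.LegendreSymbol.AddCharacter
import Mathlib.Analysis.SpecialFunctions.Complex.CircleAddChar
import Mathlib.FieldTheory.Finite.Basic

/-!
An even quaternary lattice of level `p` and discriminant `p ^ 2`, its dual, its discriminant form
and the Gauss sum of that form.
-/

set_option autoImplicit false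

noncomputable section

namespace FLTAgent.EisIndex.Theta

/-- Parameters of the lattice. -/
structure LatticeDatum (p : ℕ) where
  /-- coefficient -/
  s : ℤ
  /-- coefficient -/
  c : ℤ
  /-- coefficient -/
  m : ℤ
  rel : c ^ 2 + (p : ℤ) = (4 * s - 1) * m
  pos : 0 < 4 * s - 1
  ndvd : ((4 * s - 1 : ℤ) : ZMod p) ≠ 0
  nonsq : ¬ IsSquare (-((4 * s - 1 : ℤ) : ZMod p))

variable {p : ℕ} [Fact p.Prime]

/-- Lattice data exist for every odd prime. -/
theorem exists_latticeDatum (hp2 : p ≠ 2) : Nonempty (LatticeDatum p) := by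
  have hp : p.Prime := Fact.out
  have hodd : p % 2 = 1 := hp.eq_two_or_odd.resolve_left hp2
  obtain ⟨e, he⟩ := FiniteField.exists_nonsquare (F := ZMod p) (by rw [ringChar.eq (ZMod p) p]; exact hp2)
  have he0 : e ≠ 0 := fun h ↦ he (h ▸ IsSquare.zero)
  have hcop : Nat.Coprime 4 p := by
    rw [Nat.coprime_comm, hp.coprime_iff_not_dvd]
    intro h
    exact hp2 ((Nat.prime_dvd_prime_iff_eq hp Nat.prime_two).1
      (hp.dvd_of_dvd_pow (show p ∣ 2 ^ 2 from h)))
  obtain ⟨r, hr4, hrp⟩ := Nat.chineseRemainder hcop 3 (-e).val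
  have : NeZero (4 * p) := ⟨Nat.mul_ne_zero (by norm_num) hp.ne_zero⟩
  have hrunit : IsUnit ((r : ℕ) : ZMod (4 * p)) := by
    rw [ZMod.isUnit_iff_coprime]
    refine Nat.Coprime.mul_right ?_ ?_
    · rw [Nat.coprime_comm, show (4 : ℕ) = 2 ^ 2 by norm_num]
      refine Nat.Coprime.pow_left _ (Nat.prime_two.coprime_iff_not_dvd.2 ?_)
      intro h
      unfold Nat.ModEq at hr4
      omega
    · rw [Nat.coprime_comm, hp.coprime_iff_not_dvd]
      intro h
      have h0 : ((r : ℕ) : ZMod p) = -e := by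
        rw [(ZMod.natCast_eq_natCast_iff _ _ _).2 hrp, ZMod.natCast_zmod_val]
      rw [(ZMod.natCast_eq_zero_iff _ _).2 h] at h0
      exact he0 (neg_eq_zero.1 h0.symm)
  obtain ⟨q, hqr, hq, hqmod⟩ :=
    Nat.forall_exists_prime_gt_and_eq_mod hrunit (p + 4)
  have hqmod' : q ≡ r [MOD 4 * p] := (ZMod.natCast_eq_natCast_iff _ _ _).1 hqmod
  have hq4 : q % 4 = 3 := by
    have h1 : q ≡ r [MOD 4] := hqmod'.of_mul_right p
    have h2 := h1.trans hr4
    unfold Nat.ModEq at h2
    omega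
  have hqp : (q : ZMod p) = -e := by
    rw [(ZMod.natCast_eq_natCast_iff _ _ _).2 ((hqmod'.of_mul_left 4).trans hrp),
      ZMod.natCast_zmod_val]
  have hq_ne : p ≠ q := by omega
  haveI := Fact.mk hq
  have hq2 : q ≠ 2 := by omega
  have hsq : IsSquare (-((p : ℕ) : ZMod q)) := by
    by_contra hns
    have hp0 : ((p : ℕ) : ZMod q) ≠ 0 := by
      rw [Ne, ZMod.natCast_eq_zero_iff, Nat.prime_dvd_prime_iff_eq hq hp]
      exact Ne.symm hq_ne
    have hm1 : ¬ IsSquare (-1 : ZMod q) := by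
      rw [ZMod.exists_sq_eq_neg_one_iff]
      omega
    have hpsq : IsSquare ((p : ℕ) : ZMod q) := by
      by_contra h
      apply hns
      rw [← neg_one_mul]
      have h1 := (quadraticChar_neg_one_iff_not_isSquare (F := ZMod q)).2 hm1
      have h2 := (quadraticChar_neg_one_iff_not_isSquare (F := ZMod q)).2 h
      refine (quadraticChar_one_iff_isSquare (mul_ne_zero (by simp) hp0)).1 ?_
      rw [map_mul, h1, h2]
      norm_num
    rcases Nat.lt_or_ge (p % 4) 2 with h4 | h4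
    · have hp4 : p % 4 = 1 := by omega
      -- `q` is a non-square modulo `p` as `-1` is a square
      have hnq : ¬ IsSquare ((q : ℕ) : ZMod p) := by
        rw [hqp]
        intro hs
        apply he
        have hm : IsSquare (-1 : ZMod p) := ZMod.exists_sq_eq_neg_one_iff.2 (by omega)
        simpa using hm.mul hs
      exact hnq ((ZMod.exists_sq_eq_prime_iff_of_mod_four_eq_one hp4 hq2).2 hpsq)
    · have hp4 : p % 4 = 3 := by omega
      have hmp : ¬ IsSquare (-1 : ZMod p) := by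
        rw [ZMod.exists_sq_eq_neg_one_iff]
        omega
      have hqs : IsSquare ((q : ℕ) : ZMod p) := by
        rw [hqp, ← neg_one_mul]
        have h1 := (quadraticChar_neg_one_iff_not_isSquare (F := ZMod p)).2 hmp
        have h2 := (quadraticChar_neg_one_iff_not_isSquare (F := ZMod p)).2 he
        refine (quadraticChar_one_iff_isSquare (mul_ne_zero (by simp) he0)).1 ?_
        rw [map_mul, h1, h2]
        norm_num
      exact (ZMod.exists_sq_eq_prime_iff_of_mod_four_eq_three hp4 hq4 hq_ne).1 hqs hpsq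
  obtain ⟨cc, hcc⟩ := hsq
  have hdvd : (q : ℤ) ∣ (cc.val : ℤ) ^ 2 + (p : ℤ) := by
    rw [← ZMod.intCast_zmod_eq_zero_iff_dvd]
    push_cast
    rw [ZMod.natCast_zmod_val, sq, ← hcc]
    ring
  obtain ⟨m, hm⟩ := hdvd
  refine ⟨⟨((q : ℤ) + 1) / 4, cc.val, m, ?_, ?_, ?_, ?_⟩⟩
  · rw [show 4 * (((q : ℤ) + 1) / 4) - 1 = (q : ℤ) by omega]
    exact hm
  · omega
  · rw [show 4 * (((q : ℤ) + 1) / 4) - 1 = (q : ℤ) by omega]
    push_cast
    rw [hqp]
    simpa using he0
  · rw [show 4 * (((q : ℤ) + 1) / 4) - 1 = (q : ℤ) by omega]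
    push_cast
    rw [hqp, neg_neg]
    exact he

namespace LatticeDatum

variable (d : LatticeDatum p) {R : Type*} [CommRing R]

/-- Half the square norm: `x² + xy + s y² + c yw + m w² + p wz + ps z²`, in the order `(x,y,w,z)`. -/
def qf (v : Fin 4 → R) : R :=
  v 0 ^ 2 + v 0 * v 1 + d.s * v 1 ^ 2 + d.c * (v 1 * v 2) + d.m * v 2 ^ 2 + p * (v 2 * v 3) +
    p * d.s * v 3 ^ 2

/-- The Gram map. -/
def gram (v : Fin 4 → R) : Fin 4 → R :=
  ![2 * v 0 + v 1, v 0 + 2 * d.s * v 1 + d.c * v 2, d.c * v 1 + 2 * d.m * v 2 + p * v 3,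
    p * v 2 + 2 * p * d.s * v 3]

/-- The level times the inverse of the Gram map. -/
def adj (v : Fin 4 → R) : Fin 4 → R :=
  ![2 * d.s * d.m * v 0 + (p - 4 * d.s * d.m) * v 1 + 2 * d.c * d.s * v 2 - d.c * v 3,
    (p - 4 * d.s * d.m) * v 0 + (8 * d.s * d.m - 2 * p) * v 1 - 4 * d.c * d.s * v 2 +
      2 * d.c * v 3,
    2 * d.s * d.c * v 0 - 4 * d.s * d.c * v 1 + 2 * (4 * d.s - 1) * d.s * v 2 -
      (4 * d.s - 1) * v 3,
    -d.c * v 0 + 2 * d.c * v 1 - (4 * d.s - 1) * v 2 + 2 * v 3]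

/-- Half the square norm of the sublattice, divided by the level. -/
def qfSub (v : Fin 4 → R) : R :=
  d.s * d.m * v 0 ^ 2 + (4 * d.s * d.m - p) * v 1 ^ 2 + (4 * d.s - 1) * d.s * v 2 ^ 2 + v 3 ^ 2 +
    (p - 4 * d.s * d.m) * (v 0 * v 1) + 2 * d.c * d.s * (v 0 * v 2) - d.c * (v 0 * v 3) -
    4 * d.c * d.s * (v 1 * v 2) + 2 * d.c * (v 1 * v 3) - (4 * d.s - 1) * (v 2 * v 3)

/-- The bilinear form. -/
def bf (v w : Fin 4 → R) : R := ∑ i, v i * d.gram w i

theorem rel_cast : (d.c : R) ^ 2 + (p : R) = (4 * d.s - 1) * d.m := by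
  exact_mod_cast congrArg (fun x : ℤ ↦ (x : R)) d.rel

omit [Fact p.Prime] in
theorem qf_add (v w : Fin 4 → R) : d.qf (v + w) = d.qf v + d.qf w + d.bf v w := by
  simp [qf, bf, gram, Fin.sum_univ_four]
  ring

theorem gram_adj (v : Fin 4 → R) : d.gram (d.adj v) = fun i ↦ (p : R) * v i := by
  have h := d.rel_cast (R := R)
  funext i
  fin_cases i <;> simp [gram, adj]
  · ring
  · linear_combination (2 * (d.s : R) * v 0 - 4 * d.s * v 1) * h
  · linear_combination (-(4 * (d.s : R) * v 2) + 2 * v 3) * h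
  · ring

theorem adj_gram (v : Fin 4 → R) : d.adj (d.gram v) = fun i ↦ (p : R) * v i := by
  have h := d.rel_cast (R := R)
  funext i
  fin_cases i <;> simp [gram, adj]
  · linear_combination (2 * (d.s : R) * v 1) * h
  · linear_combination (-(4 * (d.s : R) * v 1)) * h
  · linear_combination (-(4 * (d.s : R) * v 2)) * h
  · linear_combination (2 * v 2) * h

theorem qf_adj (v : Fin 4 → R) : d.qf (d.adj v) = (p : R) * d.qfSub v := by
  have h := d.rel_cast (R := R)
  simp [qf, adj, qfSub]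
  linear_combination
    ((((p : R) - 4 * d.s * d.m) * v 0 + (8 * d.s * d.m - 2 * p) * v 1 - 4 * d.c * d.s * v 2 +
        2 * d.c * v 3) * (d.s * v 0 - 2 * d.s * v 1) +
      (2 * d.s * d.c * v 0 - 4 * d.s * d.c * v 1 + 2 * (4 * d.s - 1) * d.s * v 2 -
        (4 * d.s - 1) * v 3) * (-(2 * d.s * v 2) + v 3)) * h

omit [Fact p.Prime] in
theorem map_qf {S : Type*} [CommRing S] (φ : R →+* S) (v : Fin 4 → R) :
    φ (d.qf v) = d.qf (fun i ↦ φ (v i)) := by
  simp [qf]

end LatticeDatum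

end FLTAgent.EisIndex.Theta
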