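import Mathlib.Analysis.SpecialFunctions.Gaussian.PoissonSummation
import Mathlib.Analysis.SpecialFunctions.Pow.Real
import Mathlib.Logic.Equiv.Fin.Basic
import Mathlib.Algebra.BigOperators.Fin
import Mathlib.Algebra.Order.BigOperators.Ring.Finset

/-!
Poisson summation for Gaussians of positive definite quadratic forms in triangular shape, by
induction on the number of variables from the one dimensional case.
-/

set_option autoImplicit false

noncomputable section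

namespace FLTAgent.EisIndex.Theta

open Complex
open scoped Real

variable {n : ℕ}

/-- The Gaussian summand of a form. -/
def gauss (Q : (Fin n → ℝ) → ℝ) (t : ℂ) (z : Fin n → ℂ) (v : Fin n → ℤ) : ℂ :=
  cexp (-π * t * (Q (fun i ↦ (v i : ℝ)) : ℂ) + 2 * π * ∑ i, (v i : ℂ) * z i)

/-- `Q` is a positive form whose Gaussians satisfy Poisson summation with dual form `Qd`. -/
structure PoissonPair (n : ℕ) (Q : (Fin n → ℝ) → ℝ) (Qd : (Fin n → ℂ) → ℂ) (κ : ℝ) : Prop where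
  bound : ∃ ε > 0, ∀ v : Fin n → ℝ, ε * ∑ i, v i ^ 2 ≤ Q v
  dualBound : ∀ (t : ℂ), 0 < t.re → ∀ z : Fin n → ℂ, ∃ ε > 0, ∃ C : ℝ, ∀ u : Fin n → ℝ,
    ε * ∑ i, u i ^ 2 ≤ C + ((π : ℂ) / t * Qd (fun i ↦ (u i : ℂ) + I * z i)).re
  identity : ∀ (t : ℂ), 0 < t.re → ∀ z : Fin n → ℂ,
    ∑' v : Fin n → ℤ, gauss Q t z v =
      ((t ^ (1 / 2 : ℂ)) ^ n * (κ : ℂ))⁻¹ *
        ∑' u : Fin n → ℤ, cexp (-π / t * Qd (fun i ↦ (u i : ℂ) + I * z i))

theorem poissonPair_zero : PoissonPair 0 (fun _ ↦ 0) (fun _ ↦ 0) 1 where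
  bound := ⟨1, one_pos, fun v ↦ by simp⟩
  dualBound t _ z := ⟨1, one_pos, 0, fun u ↦ by simp⟩
  identity t _ z := by simp [gauss]

theorem norm_gauss (Q : (Fin n → ℝ) → ℝ) (t : ℂ) (z : Fin n → ℂ) (v : Fin n → ℤ) :
    ‖gauss Q t z v‖ =
      Real.exp (-π * t.re * Q (fun i ↦ (v i : ℝ)) + 2 * π * ∑ i, (v i : ℝ) * (z i).re) := by
  have h1 : (∑ i, (v i : ℂ) * z i).re = ∑ i, (v i : ℝ) * (z i).re := by
    simp [Complex.re_sum]
  rw [gauss, Complex.norm_exp]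
  congr 1
  rw [← h1]
  simp

theorem summable_prod_fn {f : Fin n → ℤ → ℝ} (h0 : ∀ i k, 0 ≤ f i k)
    (h : ∀ i, Summable (f i)) : Summable fun v : Fin n → ℤ ↦ ∏ i, f i (v i) := by
  induction n with
  | zero => exact Summable.of_finite
  | succ n ih =>
    rw [← (Fin.consEquiv fun _ : Fin (n + 1) ↦ ℤ).summable_iff]
    have := (h 0).mul_of_nonneg (ih (f := fun i ↦ f i.succ) (fun i k ↦ h0 _ _) (fun i ↦ h _))
      (fun k ↦ h0 0 k) (fun v ↦ Finset.prod_nonneg fun i _ ↦ h0 _ _)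
    refine this.congr fun x ↦ ?_
    simp [Fin.prod_univ_succ, Fin.consEquiv]

theorem summable_int_gaussian {a : ℝ} (ha : 0 < a) (b : ℝ) :
    Summable fun k : ℤ ↦ Real.exp (-(a * (k : ℝ) ^ 2) + b * k) := by
  have hC : ∀ k : ℤ, -(a * (k : ℝ) ^ 2) + b * k ≤ (|b| + 1) ^ 2 / (4 * a) + -|(k : ℝ)| := by
    intro k
    have h1 : b * (k : ℝ) ≤ |b| * |(k : ℝ)| := le_trans (le_abs_self _) (abs_mul b k).le
    have h2 : 0 ≤ (2 * a * |(k : ℝ)| - (|b| + 1)) ^ 2 / (4 * a) := by positivity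
    have h3 : (2 * a * |(k : ℝ)| - (|b| + 1)) ^ 2 / (4 * a) =
        a * |(k : ℝ)| ^ 2 - (|b| + 1) * |(k : ℝ)| + (|b| + 1) ^ 2 / (4 * a) := by
      field_simp
      ring
    rw [sq_abs (k : ℝ)] at h3
    linarith
  refine Summable.of_nonneg_of_le (fun k ↦ (Real.exp_pos _).le)
    (fun k ↦ (Real.exp_le_exp.2 (hC k)).trans (Real.exp_add _ _).le) (Summable.mul_left _ ?_)
  apply Summable.of_nat_of_neg
  · simpa using Real.summable_exp_neg_nat
  · simpa using Real.summable_exp_neg_nat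

theorem summable_gauss {Q : (Fin n → ℝ) → ℝ}
    (hb : ∃ ε > 0, ∀ v : Fin n → ℝ, ε * ∑ i, v i ^ 2 ≤ Q v) {t : ℂ} (ht : 0 < t.re)
    (z : Fin n → ℂ) : Summable fun v ↦ ‖gauss Q t z v‖ := by
  obtain ⟨ε, hε, hb⟩ := hb
  refine Summable.of_nonneg_of_le (fun v ↦ norm_nonneg _) (fun v ↦ ?_)
    (summable_prod_fn
      (f := fun i k ↦ Real.exp (-(π * t.re * ε * (k : ℝ) ^ 2) + 2 * π * (z i).re * k))
      (fun i k ↦ (Real.exp_pos _).le) fun i ↦ summable_int_gaussian (by positivity) _)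
  rw [norm_gauss, ← Real.exp_sum]
  refine Real.exp_le_exp.2 ?_
  have h1 : ∑ i, (-(π * t.re * ε * (v i : ℝ) ^ 2) + 2 * π * (z i).re * (v i : ℝ)) =
      -(π * t.re) * (ε * ∑ i, (v i : ℝ) ^ 2) + 2 * π * ∑ i, (v i : ℝ) * (z i).re := by
    simp only [Finset.mul_sum, ← Finset.sum_add_distrib]
    exact Finset.sum_congr rfl fun i _ ↦ by ring
  rw [h1]
  have h2 := mul_le_mul_of_nonneg_left (hb fun i ↦ (v i : ℝ)) (mul_nonneg Real.pi_pos.le ht.le)
  linarith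

/-- The enlarged form. -/
def extForm (a : ℝ) (b : Fin n → ℝ) (Q : (Fin n → ℝ) → ℝ) (v : Fin (n + 1) → ℝ) : ℝ :=
  a * (v 0 + ∑ i, b i * v i.succ) ^ 2 + Q (fun i ↦ v i.succ)

/-- The enlarged dual form. -/
def extDual (a : ℝ) (b : Fin n → ℝ) (Qd : (Fin n → ℂ) → ℂ) (u : Fin (n + 1) → ℂ) : ℂ :=
  u 0 ^ 2 / (a : ℂ) + Qd (fun i ↦ u i.succ - u 0 * (b i : ℂ))

theorem bound_extForm {a : ℝ} (ha : 0 < a) (b : Fin n → ℝ) {Q : (Fin n → ℝ) → ℝ}
    (hQ : ∃ ε > 0, ∀ v : Fin n → ℝ, ε * ∑ i, v i ^ 2 ≤ Q v) :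
    ∃ ε > 0, ∀ v : Fin (n + 1) → ℝ, ε * ∑ i, v i ^ 2 ≤ extForm a b Q v := by
  obtain ⟨ε, hε, hb⟩ := hQ
  set B := ∑ i, b i ^ 2
  have hB : 0 ≤ B := Finset.sum_nonneg fun i _ ↦ sq_nonneg _
  have hden : (0 : ℝ) < 2 * ε + a * (1 + 2 * B) := by positivity
  refine ⟨a * ε / (2 * ε + a * (1 + 2 * B)), by positivity, fun v ↦ ?_⟩
  rw [Fin.sum_univ_succ, extForm]
  set x := v 0
  set L := ∑ i : Fin n, b i * v i.succ
  set Y := ∑ i : Fin n, v i.succ ^ 2
  have hY : 0 ≤ Y := Finset.sum_nonneg fun i _ ↦ sq_nonneg _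
  have hL : L ^ 2 ≤ B * Y := Finset.sum_mul_sq_le_sq_mul_sq _ _ _
  have hQ : ε * Y ≤ Q (fun i ↦ v i.succ) := hb _
  rw [div_mul_eq_mul_div, div_le_iff₀ hden]
  have h1 : a * ε * x ^ 2 ≤ 2 * a * ε * (x + L) ^ 2 + 2 * a * ε * (B * Y) := by
    nlinarith [mul_le_mul_of_nonneg_left hL (by positivity : (0 : ℝ) ≤ 2 * a * ε),
      mul_nonneg (mul_nonneg ha.le hε.le) (sq_nonneg (x + 2 * L))]
  nlinarith [h1, mul_le_mul_of_nonneg_left hQ (by positivity : (0 : ℝ) ≤ a * (1 + 2 * B)),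
    mul_nonneg (by positivity : (0 : ℝ) ≤ a * a * (1 + 2 * B)) (sq_nonneg (x + L)),
    mul_le_mul_of_nonneg_left hQ (by positivity : (0 : ℝ) ≤ 2 * ε),
    mul_nonneg (mul_nonneg hε.le hε.le) hY]

theorem bound_one {c : ℂ} (hc : 0 < c.re) (w : ℂ) :
    ∃ C : ℝ, ∀ k : ℝ, c.re / 2 * k ^ 2 ≤ C + (c * ((k : ℂ) + w) ^ 2).re := by
  set r := (2 * c * w).re
  refine ⟨r ^ 2 / (2 * c.re) - (c * w ^ 2).re, fun k ↦ ?_⟩
  have e : (c * ((k : ℂ) + w) ^ 2).re = c.re * k ^ 2 + r * k + (c * w ^ 2).re := by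
    have : c * ((k : ℂ) + w) ^ 2 =
        ((k ^ 2 : ℝ) : ℂ) * c + (k : ℂ) * (2 * c * w) + c * w ^ 2 := by
      push_cast
      ring
    rw [this, add_re, add_re, re_ofReal_mul, re_ofReal_mul]
    ring
  rw [e]
  have h : 0 ≤ (c.re * k + r) ^ 2 / (2 * c.re) := by positivity
  have h2 : (c.re * k + r) ^ 2 / (2 * c.re) =
      c.re / 2 * k ^ 2 + r * k + r ^ 2 / (2 * c.re) := by
    field_simp
    ring
  linarith

theorem summable_of_dualBound {T : (Fin n → ℝ) → ℂ}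
    (h : ∃ ε > 0, ∃ C : ℝ, ∀ u : Fin n → ℝ, ε * ∑ i, u i ^ 2 ≤ C + (T u).re) :
    Summable fun u : Fin n → ℤ ↦ cexp (-T (fun i ↦ (u i : ℝ))) := by
  obtain ⟨ε, hε, C, hC⟩ := h
  refine Summable.of_norm_bounded ((summable_prod_fn
    (f := fun _ k ↦ Real.exp (-(ε * (k : ℝ) ^ 2) + 0 * k))
    (fun i k ↦ (Real.exp_pos _).le) fun i ↦ summable_int_gaussian hε 0).mul_left (Real.exp C))
    fun u ↦ ?_
  rw [Complex.norm_exp, ← Real.exp_sum, ← Real.exp_add]
  refine Real.exp_le_exp.2 ?_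
  have := hC fun i ↦ (u i : ℝ)
  simp only [zero_mul, add_zero, Finset.sum_neg_distrib, neg_re]
  rw [← Finset.mul_sum]
  linarith

theorem cpow_half_mul {a : ℝ} (ha : 0 < a) {t : ℂ} (ht : t ≠ 0) :
    (t * (a : ℂ)) ^ (1 / 2 : ℂ) = t ^ (1 / 2 : ℂ) * (Real.sqrt a : ℂ) := by
  have ha0 : (a : ℂ) ≠ 0 := ofReal_ne_zero.2 ha.ne'
  rw [cpow_def_of_ne_zero (mul_ne_zero ht ha0), Complex.log_mul_ofReal a ha t ht, add_mul,
    Complex.exp_add, cpow_def_of_ne_zero ht, mul_comm]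
  congr 1
  rw [Real.sqrt_eq_rpow, Real.rpow_def_of_pos ha]
  push_cast
  rfl

variable {Q : (Fin n → ℝ) → ℝ} {Qd : (Fin n → ℂ) → ℂ} {κ : ℝ}

theorem dualBound_ext (h : PoissonPair n Q Qd κ) {a : ℝ} (ha : 0 < a) (b : Fin n → ℝ) {t : ℂ}
    (ht : 0 < t.re) (z : Fin (n + 1) → ℂ) :
    ∃ ε > 0, ∃ C : ℝ, ∀ u : Fin (n + 1) → ℝ, ε * ∑ i, u i ^ 2 ≤
      C + ((π : ℂ) / t * extDual a b Qd (fun i ↦ (u i : ℂ) + I * z i)).re := by
  have ht0 : t ≠ 0 := fun e ↦ by simp [e] at ht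
  have hre : 0 < ((π : ℂ) / (t * a)).re := by
    rw [div_eq_mul_inv, re_ofReal_mul, inv_re]
    exact mul_pos Real.pi_pos (div_pos (by simp [ha, ht])
      (normSq_pos.2 (mul_ne_zero ht0 (ofReal_ne_zero.2 ha.ne'))))
  obtain ⟨C0, hC0⟩ := bound_one hre (I * z 0)
  obtain ⟨ε, hε, C, hC⟩ := h.dualBound t ht (fun i ↦ z i.succ - z 0 * (b i : ℂ))
  set B := ∑ i, b i ^ 2
  have hB : 0 ≤ B := Finset.sum_nonneg fun i _ ↦ sq_nonneg _
  set δ := ((π : ℂ) / (t * a)).re / 2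
  have hδ : 0 < δ := by positivity
  refine ⟨min (ε / 2) (δ / (1 + 2 * B)), by positivity, C0 + C, fun u ↦ ?_⟩
  set Y := ∑ i : Fin n, u i.succ ^ 2
  set W := ∑ i : Fin n, (u i.succ - u 0 * b i) ^ 2
  have hYW : Y ≤ 2 * W + 2 * B * u 0 ^ 2 := by
    simp only [Y, W, B, Finset.mul_sum, Finset.sum_mul, ← Finset.sum_add_distrib]
    refine Finset.sum_le_sum fun i _ ↦ ?_
    nlinarith [sq_nonneg (u i.succ - 2 * (u 0 * b i))]
  have h2 := hC (fun i ↦ u i.succ - u 0 * b i)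
  have h0 := hC0 (u 0)
  have e : ((π : ℂ) / t * extDual a b Qd (fun i ↦ (u i : ℂ) + I * z i)).re =
      ((π : ℂ) / (t * a) * ((u 0 : ℂ) + I * z 0) ^ 2).re + ((π : ℂ) / t *
        Qd (fun i ↦ ((u i.succ - u 0 * b i : ℝ) : ℂ) +
          I * (z i.succ - z 0 * (b i : ℂ)))).re := by
    rw [← add_re, extDual, mul_add]
    have e1 : (fun i ↦ (u i.succ : ℂ) + I * z i.succ - ((u 0 : ℂ) + I * z 0) * (b i : ℂ)) =
        fun i ↦ ((u i.succ - u 0 * b i : ℝ) : ℂ) + I * (z i.succ - z 0 * (b i : ℂ)) := by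
      funext i
      push_cast
      ring
    rw [e1]
    congr 1
    field_simp
  rw [e, Fin.sum_univ_succ]
  have hm1 : min (ε / 2) (δ / (1 + 2 * B)) ≤ ε / 2 := min_le_left _ _
  have hm2 : min (ε / 2) (δ / (1 + 2 * B)) * (1 + 2 * B) ≤ δ :=
    (le_div_iff₀ (by positivity)).1 (min_le_right _ _)
  have hmpos : 0 ≤ min (ε / 2) (δ / (1 + 2 * B)) := by positivity
  have hW : 0 ≤ W := Finset.sum_nonneg fun i _ ↦ sq_nonneg _
  nlinarith [mul_le_mul_of_nonneg_left hYW hmpos,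
    mul_le_mul_of_nonneg_right hm1 (mul_nonneg two_pos.le hW),
    mul_le_mul_of_nonneg_right hm2 (sq_nonneg (u 0))]

/-- Adding one variable. -/
theorem PoissonPair.succ (h : PoissonPair n Q Qd κ) {a : ℝ} (ha : 0 < a) (b : Fin n → ℝ) :
    PoissonPair (n + 1) (extForm a b Q) (extDual a b Qd) (κ * Real.sqrt a) where
  bound := bound_extForm ha b h.bound
  dualBound t ht z := dualBound_ext h ha b ht z
  identity t ht z := by
    have ht0 : t ≠ 0 := fun e ↦ by simp [e] at ht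
    have ha0 : (a : ℂ) ≠ 0 := ofReal_ne_zero.2 ha.ne'
    have hat : 0 < (t * (a : ℂ)).re := by simp [ha, ht]
    set z0 := z 0
    set zs : Fin n → ℂ := fun i ↦ z i.succ
    set e := Fin.consEquiv fun _ : Fin (n + 1) ↦ ℤ
    let w : (Fin n → ℤ) → ℂ := fun y ↦ ∑ i, (b i : ℂ) * (y i : ℂ)
    let F : ℤ → (Fin n → ℤ) → ℂ := fun x y ↦ gauss (extForm a b Q) t z (e (x, y))
    let zk : ℤ → Fin n → ℂ := fun k i ↦ zs i + I * (b i : ℂ) * ((k : ℂ) + I * z0)
    let f : ℤ → ℂ := fun k ↦ cexp (-π / (t * a) * ((k : ℂ) + I * z0) ^ 2)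
    let G : ℤ → (Fin n → ℤ) → ℂ := fun k y ↦ f k * gauss Q t (zk k) y
    have hF : Summable (Function.uncurry F) :=
      Summable.of_norm ((e.summable_iff.2 (summable_gauss (bound_extForm ha b h.bound) ht z)).congr
        fun x ↦ rfl)
    have hf : Summable fun k : ℤ ↦ ‖f k‖ := by
      have hre : 0 < ((π : ℂ) / (t * a)).re := by
        rw [div_eq_mul_inv, re_ofReal_mul, inv_re]
        exact mul_pos Real.pi_pos (div_pos hat (normSq_pos.2 (mul_ne_zero ht0 ha0)))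
      refine ((summable_int_gaussian hre (-2 * π / (t * a) * (I * z0)).re).mul_left
        (Real.exp ((-π / (t * a) * (I * z0) ^ 2).re))).congr fun k ↦ ?_
      rw [Complex.norm_exp, ← Real.exp_add]
      congr 1
      have e' : -π / (t * a) * ((k : ℂ) + I * z0) ^ 2 = -π / (t * a) * (I * z0) ^ 2 +
          (((-(1 : ℝ)) * (k : ℝ) ^ 2 : ℝ) : ℂ) * (π / (t * a)) +
          ((k : ℝ) : ℂ) * (-2 * π / (t * a) * (I * z0)) := by
        push_cast
        ring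
      rw [e', add_re, add_re, re_ofReal_mul, re_ofReal_mul]
      ring
    have hG : Summable (Function.uncurry G) := by
      refine Summable.of_norm ((hf.mul_of_nonneg
        (summable_gauss h.bound ht fun i ↦ (((zs i).re - b i * z0.re : ℝ) : ℂ))
        (fun _ ↦ norm_nonneg _) (fun _ ↦ norm_nonneg _)).congr fun x ↦ ?_)
      obtain ⟨k, y⟩ := x
      simp only [Function.uncurry_apply_pair, G, norm_mul, norm_gauss, ofReal_re]
      congr 4
      refine Finset.sum_congr rfl fun i _ ↦ ?_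
      simp [zk]
      exact Or.inl (by ring)
    have hinner : ∀ y, ∑' x, F x y = ((t * a) ^ (1 / 2 : ℂ))⁻¹ * ∑' k, G k y := by
      intro y
      have hsplit : ∀ x : ℤ, F x y =
          cexp (-π * t * ((Q (fun i ↦ (y i : ℝ)) : ℂ) + a * w y ^ 2) +
            2 * π * ∑ i, (y i : ℂ) * zs i) *
          cexp (-π * (t * a) * (x : ℂ) ^ 2 + 2 * π * (z0 - t * a * w y) * x) := by
        intro x
        simp only [F, gauss, extForm, e, Fin.consEquiv_apply, Fin.sum_univ_succ, Fin.cons_zero,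
          Fin.cons_succ, w, ← Complex.exp_add]
        congr 1
        push_cast
        ring
      rw [tsum_congr hsplit, tsum_mul_left, Complex.tsum_exp_neg_quadratic hat, one_div,
        mul_left_comm, ← tsum_mul_left]
      congr 1
      refine tsum_congr fun k ↦ ?_
      simp only [G, f, gauss, ← Complex.exp_add]
      congr 1
      have e' : ∑ i, (y i : ℂ) * zk k i =
          (∑ i, (y i : ℂ) * zs i) + I * ((k : ℂ) + I * z0) * w y := by
        simp only [w, zk, Finset.mul_sum, ← Finset.sum_add_distrib]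
        exact Finset.sum_congr rfl fun i _ ↦ by ring
      rw [e']
      field_simp
      ring_nf
      simp only [I_sq]
      ring
    have hrhs : ∀ k, ∑' y, G k y = ((t ^ (1 / 2 : ℂ)) ^ n * (κ : ℂ))⁻¹ *
        ∑' y : Fin n → ℤ,
          cexp (-π / t * extDual a b Qd (fun i ↦ (e (k, y) i : ℂ) + I * z i)) := by
      intro k
      simp only [G]
      rw [tsum_mul_left, h.identity t ht, mul_left_comm, ← tsum_mul_left]
      congr 1
      refine tsum_congr fun y ↦ ?_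
      simp only [f, ← Complex.exp_add, extDual, e, Fin.consEquiv_apply, Fin.cons_zero,
        Fin.cons_succ]
      congr 1
      have e' : (fun i ↦ (y i : ℂ) + I * zk k i) =
          fun i ↦ (y i : ℂ) + I * z i.succ - ((k : ℂ) + I * z0) * (b i : ℂ) := by
        funext i
        simp only [zk, zs]
        linear_combination ((b i : ℂ) * ((k : ℂ) + I * z0)) * I_sq
      rw [e']
      field_simp
      ring
    have hrhs_sum : Summable fun p : ℤ × (Fin n → ℤ) ↦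
        cexp (-π / t * extDual a b Qd (fun i ↦ (e p i : ℂ) + I * z i)) := by
      have hb : ∃ ε > 0, ∃ C : ℝ, ∀ u : Fin (n + 1) → ℝ, ε * ∑ i, u i ^ 2 ≤
          C + ((π : ℂ) / t * extDual a b Qd (fun i ↦ (u i : ℂ) + I * z i)).re :=
        dualBound_ext h ha b ht z
      refine (e.summable_iff.2 (summable_of_dualBound hb)).congr fun p ↦ ?_
      simp only [Function.comp_apply, ofReal_intCast]
      congr 1
      ring
    calc _ = ∑' x : ℤ, ∑' y : Fin n → ℤ, F x y := by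
          rw [← e.tsum_eq]
          exact hF.tsum_prod
      _ = ∑' y : Fin n → ℤ, ∑' x : ℤ, F x y := hF.tsum_comm.symm
      _ = ((t * a) ^ (1 / 2 : ℂ))⁻¹ * ∑' y : Fin n → ℤ, ∑' k : ℤ, G k y := by
          rw [tsum_congr hinner, tsum_mul_left]
      _ = ((t * a) ^ (1 / 2 : ℂ))⁻¹ * ∑' k : ℤ, ∑' y : Fin n → ℤ, G k y := by
          rw [hG.tsum_comm]
      _ = _ := by
          rw [tsum_congr hrhs, tsum_mul_left, ← hrhs_sum.tsum_prod, e.tsum_eq
            (f := fun u : Fin (n + 1) → ℤ ↦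
              cexp (-π / t * extDual a b Qd (fun i ↦ (u i : ℂ) + I * z i))),
            cpow_half_mul ha ht0, pow_succ, ofReal_mul]
          ring

end FLTAgent.EisIndex.Theta
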