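import Fermat.Agent.EisIndex.Theta.Datum
import Fermat.Agent.EisIndex.Fricke
import Mathlib.Analysis.Complex.LocallyUniformLimit

/-!
Theta series of the even lattice of level `p` twisted by functions on its discriminant group, and
their behaviour under the two standard generators of the modular group.
-/

set_option autoImplicit false

noncomputable section

namespace FLTAgent.EisIndex.Theta

open Complex Function ModularGroup ModularForm Matrix.SpecialLinearGroup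
open UpperHalfPlane hiding I
open scoped Real Manifold MatrixGroups ModularForm

variable {p : ℕ} [Fact p.Prime]

namespace LatticeDatum

variable (d : LatticeDatum p) {R : Type*} [CommRing R]

omit [Fact p.Prime] in
theorem cast_qf (v : Fin 4 → ℤ) : ((d.qf v : ℤ) : R) = d.qf (fun i ↦ (v i : R)) := by
  simp [qf]

omit [Fact p.Prime] in
theorem cast_qfSub (v : Fin 4 → ℤ) : ((d.qfSub v : ℤ) : R) = d.qfSub (fun i ↦ (v i : R)) := by
  simp [qfSub]

omit [Fact p.Prime] in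
theorem gram_smul (a : R) (v : Fin 4 → R) :
    d.gram (fun i ↦ a * v i) = fun i ↦ a * d.gram v i := by
  funext i
  fin_cases i <;> simp [gram] <;> ring

omit [Fact p.Prime] in
theorem adj_smul (a : R) (v : Fin 4 → R) :
    d.adj (fun i ↦ a * v i) = fun i ↦ a * d.adj v i := by
  funext i
  fin_cases i <;> simp [adj] <;> ring

omit [Fact p.Prime] in
theorem qf_smul (a : R) (v : Fin 4 → R) : d.qf (fun i ↦ a * v i) = a ^ 2 * d.qf v := by
  simp [qf]
  ring

omit [Fact p.Prime] in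
theorem qfSub_smul (a : R) (v : Fin 4 → R) : d.qfSub (fun i ↦ a * v i) = a ^ 2 * d.qfSub v := by
  simp [qfSub]
  ring

omit [Fact p.Prime] in
theorem qfSub_add (x y : Fin 4 → R) :
    d.qfSub (x + y) = d.qfSub x + d.qfSub y + ∑ i, x i * d.adj y i := by
  simp [qfSub, adj, Fin.sum_univ_four]
  ring

/-- The values on a coset of the sublattice. -/
theorem qf_shift (r u : Fin 4 → R) :
    d.qf (r + d.adj u) = d.qf r + (p : R) * (d.qfSub u + ∑ i, r i * u i) := by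
  rw [qf_add, qf_adj, bf, gram_adj, mul_add, Finset.mul_sum, add_assoc]
  refine congrArg₂ (· + ·) rfl (congrArg₂ (· + ·) rfl (Finset.sum_congr rfl fun i _ ↦ ?_))
  ring

/-- The shift of the dual form. -/
theorem qfSub_shift (r u : Fin 4 → ℂ) :
    d.qfSub (u + fun i ↦ (p : ℂ)⁻¹ * d.gram r i) =
      d.qfSub u + (∑ i, r i * u i) + d.qf r / p := by
  have hp : (p : ℂ) ≠ 0 := Nat.cast_ne_zero.2 (Fact.out : p.Prime).ne_zero
  have h1 : (p : ℂ) * d.qfSub (d.gram r) = (p : ℂ) * ((p : ℂ) * d.qf r) := by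
    rw [← qf_adj, adj_gram, qf_smul]
    ring
  rw [qfSub_add, qfSub_smul, mul_left_cancel₀ hp h1, adj_smul, adj_gram]
  simp only [← mul_assoc, mul_comm (u _) (p : ℂ)⁻¹, Fin.sum_univ_four]
  field_simp
  ring

/-! ### The discriminant form -/

/-- The reduction of a vector to the discriminant group. -/
def red (v : Fin 4 → ℤ) : ZMod p × ZMod p :=
  (((2 * v 0 + v 1 : ℤ) : ZMod p), (((4 * d.s - 1) * v 1 + 2 * d.c * v 2 : ℤ) : ZMod p))

/-- The reduced value of `4 s - 1`. -/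
def qq : ZMod p := ((4 * d.s - 1 : ℤ) : ZMod p)

/-- The discriminant form. -/
def qb (A : ZMod p × ZMod p) : ZMod p := (4 * d.qq)⁻¹ * (d.qq * A.1 ^ 2 + A.2 ^ 2)

/-- Its polar form. -/
def qbil (A B : ZMod p × ZMod p) : ZMod p :=
  (4 * d.qq)⁻¹ * (2 * (d.qq * (A.1 * B.1) + A.2 * B.2))

theorem qq_ne_zero : d.qq ≠ 0 := d.ndvd

theorem two_ne_zero_of_ne (hp2 : p ≠ 2) : (2 : ZMod p) ≠ 0 := by
  intro h
  have h' : ((2 : ℕ) : ZMod p) = 0 := by exact_mod_cast h
  rw [ZMod.natCast_eq_zero_iff, Nat.prime_dvd_prime_iff_eq Fact.out Nat.prime_two] at h'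
  exact hp2 h'

theorem four_qq_ne_zero (hp2 : p ≠ 2) : 4 * d.qq ≠ 0 := by
  have := two_ne_zero_of_ne hp2
  rw [show (4 : ZMod p) = 2 * 2 by norm_num]
  exact mul_ne_zero (mul_ne_zero this this) d.qq_ne_zero

theorem red_add (v w : Fin 4 → ℤ) : d.red (v + w) = d.red v + d.red w := by
  ext <;> simp [red] <;> ring

theorem cast_qf_eq_qb (hp2 : p ≠ 2) (v : Fin 4 → ℤ) : ((d.qf v : ℤ) : ZMod p) = d.qb (d.red v) := by
  have hp0 : ((p : ℕ) : ZMod p) = 0 := ZMod.natCast_self p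
  have h := d.rel_cast (R := ZMod p)
  rw [qb, eq_inv_mul_iff_mul_eq₀ (d.four_qq_ne_zero hp2)]
  simp only [qf, red, qq, Int.cast_add, Int.cast_mul, Int.cast_pow, Int.cast_natCast, hp0,
    Int.cast_sub, Int.cast_ofNat, Int.cast_one] at h ⊢
  linear_combination (-4 * ((v 2 : ℤ) : ZMod p) ^ 2) * h

theorem cast_bf_eq_qbil (hp2 : p ≠ 2) (v w : Fin 4 → ℤ) :
    ((d.bf v w : ℤ) : ZMod p) = d.qbil (d.red v) (d.red w) := by
  have h := congrArg (fun x : ℤ ↦ (x : ZMod p)) (d.qf_add v w)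
  simp only [Int.cast_add, d.cast_qf_eq_qb hp2, red_add] at h
  simp only [qb, Prod.fst_add, Prod.snd_add] at h
  rw [qbil]
  linear_combination -h

omit [Fact p.Prime] in
theorem red_adj_aux (u : Fin 4 → ℤ) :
    (2 * d.adj u 0 + d.adj u 1 = (p : ℤ) * u 0) ∧
      (4 * d.s - 1) * d.adj u 1 + 2 * d.c * d.adj u 2 =
        2 * d.gram (d.adj u) 1 - d.gram (d.adj u) 0 := by
  constructor
  · simp [adj]
    ring
  · simp [gram]
    ring

theorem red_adj (u : Fin 4 → ℤ) : d.red (d.adj u) = 0 := by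
  obtain ⟨h1, h2⟩ := d.red_adj_aux u
  rw [d.gram_adj] at h2
  ext <;> simp only [red, h1, h2, Prod.fst_zero, Prod.snd_zero] <;> simp

theorem adj_injective : Injective (d.adj : (Fin 4 → ℤ) → Fin 4 → ℤ) := by
  intro u u' h
  have h' := congrArg d.gram h
  rw [gram_adj, gram_adj] at h'
  funext i
  exact mul_left_cancel₀ (Nat.cast_ne_zero.2 (Fact.out : p.Prime).ne_zero) (congrFun h' i)

/-- The kernel of the reduction is the sublattice. -/
theorem exists_adj_eq (hp2 : p ≠ 2) {v : Fin 4 → ℤ} (hv : d.red v = 0) : ∃ u, d.adj u = v := by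
  have hp0 : ((p : ℕ) : ZMod p) = 0 := ZMod.natCast_self p
  have h := d.rel_cast (R := ZMod p)
  have h2 := two_ne_zero_of_ne hp2
  have hU : ((2 * v 0 + v 1 : ℤ) : ZMod p) = 0 := congrArg Prod.fst hv
  have hV : (((4 * d.s - 1) * v 1 + 2 * d.c * v 2 : ℤ) : ZMod p) = 0 := congrArg Prod.snd hv
  have hq : ((4 * d.s - 1 : ℤ) : ZMod p) ≠ 0 := d.ndvd
  push_cast at hU hV hq
  simp only [hp0] at h
  have key : ∀ i, (p : ℤ) ∣ d.gram v i := by
    intro i
    rw [← ZMod.intCast_zmod_eq_zero_iff_dvd]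
    fin_cases i
    · simpa [gram] using hU
    · refine (mul_eq_zero.1 ?_).resolve_left h2
      simp [gram, -mul_eq_zero]
      linear_combination hU + hV
    · refine (mul_eq_zero.1 ?_).resolve_left hq
      simp [gram, -mul_eq_zero]
      linear_combination (d.c : ZMod p) * hV - 2 * ((v 2 : ℤ) : ZMod p) * h
    · simp [gram]
  refine ⟨fun i ↦ d.gram v i / p, ?_⟩
  have e := congrArg d.adj (show d.gram v = fun i ↦ (p : ℤ) * (d.gram v i / p) from
    funext fun i ↦ (Int.mul_ediv_cancel' (key i)).symm)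
  rw [adj_gram, adj_smul] at e
  funext i
  exact (mul_left_cancel₀ (Nat.cast_ne_zero.2 (Fact.out : p.Prime).ne_zero) (congrFun e i)).symm

/-- A preimage under the reduction. -/
def lift (A : ZMod p × ZMod p) : Fin 4 → ℤ :=
  ![((((A.1 - A.2 * d.qq⁻¹) * (2 : ZMod p)⁻¹).val : ℕ) : ℤ), (((A.2 * d.qq⁻¹).val : ℕ) : ℤ), 0, 0]

theorem red_lift (hp2 : p ≠ 2) (A : ZMod p × ZMod p) : d.red (d.lift A) = A := by
  have h2 := two_ne_zero_of_ne hp2
  have hq := d.qq_ne_zero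
  ext
  · simp [red, lift]
    field_simp
    ring
  · simp [red, lift]
    rw [show (4 * (d.s : ZMod p) - 1) = d.qq by simp [qq]]
    field_simp

/-! ### The series -/

/-- The positive form and its Poisson summation. -/
theorem poisson :
    PoissonPair 4 (fun v ↦ 2 * d.qf v) (fun x ↦ 2 * d.qfSub x / (p : ℂ)) (p : ℝ) := by
  have hp : (0 : ℝ) < p := Nat.cast_pos.2 (Fact.out : p.Prime).pos
  have hpc : (p : ℂ) ≠ 0 := Nat.cast_ne_zero.2 (Fact.out : p.Prime).ne_zero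
  obtain ⟨q, hqdef⟩ : ∃ q : ℝ, q = 4 * (d.s : ℝ) - 1 := ⟨_, rfl⟩
  have hq : 0 < q := hqdef ▸ by exact_mod_cast d.pos
  have hqc : (q : ℂ) ≠ 0 := ofReal_ne_zero.2 hq.ne'
  have hs : (d.s : ℝ) = (q + 1) / 4 := by linarith
  have hm : (d.m : ℝ) = ((d.c : ℝ) ^ 2 + p) / q := by
    rw [d.rel_cast, ← hqdef]
    field_simp
  have hsc : (d.s : ℂ) = ((q : ℂ) + 1) / 4 := by
    have := congrArg (fun x : ℝ ↦ (x : ℂ)) hs
    push_cast at this
    exact this
  have hmc : (d.m : ℂ) = ((d.c : ℂ) ^ 2 + p) / q := by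
    have := congrArg (fun x : ℝ ↦ (x : ℂ)) hm
    push_cast at this
    exact this
  have h := (((poissonPair_zero.succ (a := (p : ℝ) / 2) (by positivity) ![]).succ
    (a := 2 * (p : ℝ) / q) (by positivity) ![q / 2]).succ
    (a := q / 2) (by positivity) ![2 * (d.c : ℝ) / q, 0]).succ (a := (2 : ℝ)) two_pos ![1 / 2, 0, 0]
  convert h using 1
  · funext v
    simp [qf, extForm, Fin.sum_univ_succ, hs, hm]
    field_simp
    ring
  · funext x
    simp [qfSub, extDual, hsc, hmc]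
    field_simp
    ring
  · rw [one_mul, ← Real.sqrt_mul (by positivity), ← Real.sqrt_mul (by positivity),
      ← Real.sqrt_mul (by positivity)]
    symm
    rw [Real.sqrt_eq_iff_eq_sq (by positivity) hp.le]
    field_simp

/-- The exponential of a vector. -/
def ex (τ : ℂ) (v : Fin 4 → ℤ) : ℂ := cexp (2 * π * I * τ * ((d.qf v : ℤ) : ℂ) / p)

omit [Fact p.Prime] in
theorem ex_eq_gauss (τ : ℂ) (v : Fin 4 → ℤ) :
    d.ex τ v = gauss (fun v ↦ 2 * d.qf v) (-I * τ / p) 0 v := by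
  rw [ex, gauss, cast_qf]
  congr 1
  simp [qf]
  ring

theorem summable_norm_ex {τ : ℂ} (hτ : 0 < τ.im) : Summable fun v ↦ ‖d.ex τ v‖ := by
  simp only [ex_eq_gauss]
  refine summable_gauss d.poisson.bound ?_ 0
  rw [div_natCast_re]
  simpa using div_pos hτ (Nat.cast_pos.2 (Fact.out : p.Prime).pos)

omit [Fact p.Prime] in
theorem norm_ex (τ : ℂ) (v : Fin 4 → ℤ) :
    ‖d.ex τ v‖ = Real.exp (-(2 * π * τ.im * ((d.qf v : ℤ) : ℝ) / p)) := by
  rw [ex, Complex.norm_exp]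
  congr 1
  simp [div_natCast_re]
  ring

theorem qf_nonneg (v : Fin 4 → ℤ) : (0 : ℝ) ≤ ((d.qf v : ℤ) : ℝ) := by
  obtain ⟨ε, hε, h⟩ := d.poisson.bound
  have := h fun i ↦ (v i : ℝ)
  simp only [← cast_qf] at this
  nlinarith [mul_nonneg hε.le (Finset.sum_nonneg fun i (_ : i ∈ Finset.univ) ↦ sq_nonneg (v i : ℝ))]

theorem norm_ex_le {τ : ℂ} {δ : ℝ} (h : δ ≤ τ.im) (v : Fin 4 → ℤ) :
    ‖d.ex τ v‖ ≤ ‖d.ex ((δ : ℂ) * I) v‖ := by
  rw [norm_ex, norm_ex, Real.exp_le_exp]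
  have := d.qf_nonneg v
  simp only [mul_im, ofReal_re, Complex.I_im, mul_one, ofReal_im, Complex.I_re, mul_zero, add_zero]
  have h' := mul_le_mul_of_nonneg_right h this
  have hp : (0 : ℝ) < p := Nat.cast_pos.2 (Fact.out : p.Prime).pos
  rw [neg_le_neg_iff, div_le_div_iff_of_pos_right hp]
  nlinarith [Real.pi_pos]

theorem norm_le_sum (χ : ZMod p × ZMod p → ℂ) (A : ZMod p × ZMod p) : ‖χ A‖ ≤ ∑ B, ‖χ B‖ :=
  Finset.single_le_sum (f := fun B ↦ ‖χ B‖) (fun _ _ ↦ norm_nonneg _) (Finset.mem_univ A)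

/-- The theta series twisted by a function on the discriminant group, as a function on `ℂ`. -/
def thetaC (χ : ZMod p × ZMod p → ℂ) (τ : ℂ) : ℂ := ∑' v, χ (d.red v) * d.ex τ v

/-- The theta series twisted by a function on the discriminant group. -/
def theta (χ : ZMod p × ZMod p → ℂ) (τ : ℍ) : ℂ := d.thetaC χ τ

theorem summable_term {τ : ℂ} (hτ : 0 < τ.im) (χ : ZMod p × ZMod p → ℂ) :
    Summable fun v ↦ χ (d.red v) * d.ex τ v :=
  Summable.of_norm_bounded ((d.summable_norm_ex hτ).mul_left (∑ B, ‖χ B‖)) fun v ↦ by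
    rw [norm_mul]
    exact mul_le_mul_of_nonneg_right (norm_le_sum χ _) (norm_nonneg _)

theorem mdiff_theta (χ : ZMod p × ZMod p → ℂ) : MDiff (d.theta χ) := by
  rw [UpperHalfPlane.mdifferentiable_iff]
  have key : DifferentiableOn ℂ (d.thetaC χ) {z : ℂ | 0 < z.im} := by
    intro z hz
    have hU : IsOpen {w : ℂ | z.im / 2 < w.im} := isOpen_lt continuous_const continuous_im
    have hz' : z ∈ {w : ℂ | z.im / 2 < w.im} := half_lt_self (Set.mem_ofPred.1 hz)
    refine ((differentiableOn_tsum_of_summable_norm (F := fun v w ↦ χ (d.red v) * d.ex w v)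
      ((d.summable_norm_ex (τ := ((z.im / 2 : ℝ) : ℂ) * I) ?_).mul_left (∑ B, ‖χ B‖))
      (fun v ↦ ?_) hU (fun v w hw ↦ ?_)).differentiableAt
        (hU.mem_nhds hz')).differentiableWithinAt
    · simpa using hz
    · unfold ex
      fun_prop
    · rw [norm_mul]
      exact mul_le_mul (norm_le_sum χ _) (d.norm_ex_le (le_of_lt hw) v) (norm_nonneg _)
        (Finset.sum_nonneg fun _ _ ↦ norm_nonneg _)
  refine key.congr fun z hz ↦ ?_
  simp [theta, ofComplex_apply_of_im_pos hz]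

theorem isBounded_theta (χ : ZMod p × ZMod p → ℂ) : IsBoundedAtImInfty (d.theta χ) := by
  rw [isBoundedAtImInfty_iff]
  refine ⟨(∑ B, ‖χ B‖) * ∑' v, ‖d.ex (((1 : ℝ) : ℂ) * I) v‖, 1, fun τ hτ ↦ ?_⟩
  have h1 : 0 < (((1 : ℝ) : ℂ) * I).im := by simp
  rw [theta, thetaC, ← tsum_mul_left]
  refine tsum_of_norm_bounded ((d.summable_norm_ex h1).mul_left _).hasSum fun v ↦ ?_
  rw [norm_mul]
  exact mul_le_mul (norm_le_sum χ _) (d.norm_ex_le hτ v) (norm_nonneg _)
    (Finset.sum_nonneg fun _ _ ↦ norm_nonneg _)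

theorem thetaC_sum {τ : ℂ} (hτ : 0 < τ.im) {ι : Type*} (s : Finset ι) (c : ι → ℂ)
    (χ : ι → ZMod p × ZMod p → ℂ) :
    d.thetaC (fun A ↦ ∑ i ∈ s, c i * χ i A) τ = ∑ i ∈ s, c i * d.thetaC (χ i) τ := by
  simp only [thetaC, Finset.sum_mul, ← tsum_mul_left, mul_assoc]
  refine Summable.tsum_finsetSum fun i _ ↦ ?_
  exact (d.summable_term hτ (χ i)).mul_left (c i)

/-- The indicator of a class. -/
def delta (A B : ZMod p × ZMod p) : ℂ := if B = A then 1 else 0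

theorem thetaC_delta (hp2 : p ≠ 2) (r : Fin 4 → ℤ) (τ : ℂ) :
    d.thetaC (delta (d.red r)) τ = ∑' u, d.ex τ (r + d.adj u) := by
  have hinj : Injective fun u ↦ r + d.adj u := (add_right_injective r).comp d.adj_injective
  rw [thetaC, ← hinj.tsum_eq]
  · simp [delta, red_add, red_adj]
  · intro v hv
    have hv' : d.red v = d.red r := by
      by_contra h
      simp [delta, h] at hv
    obtain ⟨u, hu⟩ := d.exists_adj_eq hp2 (v := v - r) (by
      have := d.red_add (v - r) r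
      rw [sub_add_cancel, hv'] at this
      simpa using this)
    exact ⟨u, by simp [hu]⟩

theorem stdAddChar_qb (hp2 : p ≠ 2) (v : Fin 4 → ℤ) :
    (ZMod.stdAddChar (d.qb (d.red v)) : ℂ) = cexp (2 * π * I * ((d.qf v : ℤ) : ℂ) / p) := by
  rw [← d.cast_qf_eq_qb hp2, ZMod.stdAddChar_coe]

/-- The translation `τ ↦ τ + 1`. -/
theorem theta_slash_T (hp2 : p ≠ 2) (χ : ZMod p × ZMod p → ℂ) :
    d.theta χ ∣[(2 : ℤ)] T = d.theta fun A ↦ χ A * ZMod.stdAddChar (d.qb A) := by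
  funext τ
  have h := slash_T_zpow_apply 2 (d.theta χ) 1 τ
  rw [zpow_one] at h
  rw [h, theta, theta, thetaC, thetaC]
  refine tsum_congr fun v ↦ ?_
  rw [mul_assoc, d.stdAddChar_qb hp2, ex, ex, ← Complex.exp_add]
  congr 2
  simp [coe_vadd]
  ring

/-- The Fourier transform on the discriminant group. -/
def ft (χ : ZMod p × ZMod p → ℂ) (A : ZMod p × ZMod p) : ℂ :=
  -(p : ℂ)⁻¹ * ∑ B, χ B * ZMod.stdAddChar (-d.qbil A B)

theorem thetaC_delta_inv (hp2 : p ≠ 2) (r : Fin 4 → ℤ) (τ : ℍ) :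
    d.thetaC (delta (d.red r)) (-(τ : ℂ)⁻¹) * ((τ : ℂ) ^ 2)⁻¹ =
      -(p : ℂ)⁻¹ * d.thetaC (fun A ↦ ZMod.stdAddChar (-d.qbil A (d.red r))) τ := by
  have hp : (p : ℂ) ≠ 0 := Nat.cast_ne_zero.2 (Fact.out : p.Prime).ne_zero
  have hτ : (τ : ℂ) ≠ 0 := UpperHalfPlane.ne_zero τ
  set t : ℂ := -I * τ / p with htdef
  have ht : 0 < t.re := by
    rw [htdef, div_natCast_re]
    simpa using div_pos τ.im_pos (Nat.cast_pos.2 (Fact.out : p.Prime).pos)
  have ht4 : (t ^ (1 / 2 : ℂ)) ^ 4 = t ^ 2 := by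
    rw [show (4 : ℕ) = 2 * 2 by norm_num, pow_mul, one_div]
    congr 1
    exact cpow_nat_inv_pow t two_ne_zero
  have hid := d.poisson.identity t ht fun i ↦ -I * ((p : ℂ)⁻¹ * ((d.gram r i : ℤ) : ℂ))
  have hl : ∀ v, gauss (fun v ↦ 2 * d.qf v) t
      (fun i ↦ -I * ((p : ℂ)⁻¹ * ((d.gram r i : ℤ) : ℂ))) v =
      ZMod.stdAddChar (-d.qbil (d.red v) (d.red r)) * d.ex τ v := by
    intro v
    rw [← d.cast_bf_eq_qbil hp2, ← Int.cast_neg, ZMod.stdAddChar_coe, ex, gauss, cast_qf,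
      ← Complex.exp_add, htdef, Finset.sum_congr rfl fun i _ ↦ show (v i : ℂ) *
        (-I * ((p : ℂ)⁻¹ * ((d.gram r i : ℤ) : ℂ))) =
          (-I * (p : ℂ)⁻¹) * ((v i * d.gram r i : ℤ) : ℂ) by push_cast; ring,
      ← Finset.mul_sum, ← Int.cast_sum, ← bf]
    congr 1
    simp [qf]
    ring
  have hr : ∀ u : Fin 4 → ℤ, cexp (-π / t * (2 * d.qfSub (fun i ↦ (u i : ℂ) +
      I * (-I * ((p : ℂ)⁻¹ * ((d.gram r i : ℤ) : ℂ)))) / p)) =
      d.ex (-(τ : ℂ)⁻¹) (r + d.adj u) := by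
    intro u
    have e1 : (fun i ↦ (u i : ℂ) + I * (-I * ((p : ℂ)⁻¹ * ((d.gram r i : ℤ) : ℂ)))) =
        (fun i ↦ (u i : ℂ)) + fun i ↦ (p : ℂ)⁻¹ * d.gram (fun i ↦ (r i : ℂ)) i := by
      funext i
      have : ((d.gram r i : ℤ) : ℂ) = d.gram (fun i ↦ (r i : ℂ)) i := by
        fin_cases i <;> simp [gram]
      rw [Pi.add_apply, this]
      linear_combination (-((p : ℂ)⁻¹ * d.gram (fun i ↦ (r i : ℂ)) i)) * I_sq
    rw [e1, qfSub_shift, ex, qf_shift, htdef]
    congr 1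
    simp only [Int.cast_add, Int.cast_mul, Int.cast_sum, Int.cast_natCast, cast_qf, cast_qfSub]
    field_simp
    linear_combination ((p : ℂ) * d.qfSub (fun i ↦ (u i : ℂ)) +
      (p : ℂ) * ∑ i, (r i : ℂ) * (u i : ℂ) + d.qf fun i ↦ (r i : ℂ)) * I_sq
  rw [tsum_congr hl, tsum_congr hr, ht4, ← d.thetaC_delta hp2] at hid
  show _ = _ * (∑' v, _)
  rw [hid, htdef]
  push_cast
  field_simp
  linear_combination (d.thetaC (delta (d.red r)) (-(1 / (τ : ℂ)))) * I_sq

/-- The inversion `τ ↦ -1/τ`. -/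
theorem theta_slash_S (hp2 : p ≠ 2) (χ : ZMod p × ZMod p → ℂ) :
    d.theta χ ∣[(2 : ℤ)] S = d.theta (d.ft χ) := by
  funext τ
  have hS := (S • τ).im_pos
  rw [← coe_im, coe_S_smul] at hS
  have e : χ = fun A ↦ ∑ B, χ B * delta B A := by
    funext A
    simp [delta]
  have e' : d.ft χ = fun A ↦ ∑ B, (-(p : ℂ)⁻¹ * χ B) * ZMod.stdAddChar (-d.qbil A B) := by
    funext A
    simp [ft, Finset.mul_sum, mul_assoc]
  rw [slash_S_two_apply, theta, theta, coe_S_smul, e', d.thetaC_sum τ.im_pos]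
  conv_lhs => rw [e, d.thetaC_sum hS, Finset.sum_mul]
  refine Finset.sum_congr rfl fun B _ ↦ ?_
  have h := d.thetaC_delta_inv hp2 (d.lift B) τ
  rw [d.red_lift hp2] at h
  rw [mul_assoc, h]
  ring

end LatticeDatum

end FLTAgent.EisIndex.Theta
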